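/-
S12 programme, brick 750 VELU-DEF, shared vocabulary (helper51): the algebraic Velu data of a cyclic
kernel `{k • Q : 0 < k < p}` on a Weierstrass curve in general form, WITHOUT division by `2`
(sums over the whole kernel of the partial derivatives of the Weierstrass equation).

* `gx V R  = 3x² + 2a₂x + a₄ - a₁y`              (`= -F_x(R)`),
* `psi2 V R = 2y + a₁x + a₃`                      (`=  F_y(R)`, from `MAZ/EF86/ModInv`),
* `veluT V Q p = ∑_{0<k<p} gx (k•Q)`             (Velu's `t`; `gx(R) + gx(-R) = 6x² + b₂x + b₄`),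
* `veluW V Q p = ∑_{0<k<p} (x gx + y ψ₂)(k•Q)`    (Velu's `w`; `(yψ₂)(R) + (yψ₂)(-R) = ψ₂(R)²`),
* `veluCurve V Q p = [a₁, a₂, a₃, a₄ - 5t, a₆ - b₂ t - 7w]`,
* `veluX V Q p R = x(R) + ∑_{0<k<p} (x(R + k•Q) - x(k•Q))`, `veluY` likewise.
-/
import Fermat.Agent.MAZ.EF86.ModInv

set_option autoImplicit false
set_option linter.unusedSectionVars false

noncomputable section

namespace Fermat.Agent.S12P.VeluDef51

open Fermat.Agent.MAZ.ModInv

variable {F : Type*} [Field F] [DecidableEq F] (V : WeierstrassCurve F)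

/-- `gx(R) = 3x² + 2a₂x + a₄ - a₁y`, minus the `x`-derivative of the Weierstrass equation. -/
def gx (R : V.toAffine.Point) : F :=
  3 * xco V R ^ 2 + 2 * V.a₂ * xco V R + V.a₄ - V.a₁ * yco V R

/-- `t_R = 6x² + b₂x + b₄ = gx(R) + gx(-R)`. -/
def tq (R : V.toAffine.Point) : F := 6 * xco V R ^ 2 + V.b₂ * xco V R + V.b₄

/-- `u_R = ψ₂(R)²`. -/
def uq (R : V.toAffine.Point) : F := psi2 V R ^ 2

/-- Velu's `t` for the kernel `{k • Q : 0 < k < p}`. -/
def veluT (Q : V.toAffine.Point) (p : ℕ) : F := ∑ k ∈ Finset.Ico 1 p, gx V (k • Q)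

/-- Velu's `w` for the kernel `{k • Q : 0 < k < p}`. -/
def veluW (Q : V.toAffine.Point) (p : ℕ) : F :=
  ∑ k ∈ Finset.Ico 1 p, (xco V (k • Q) * gx V (k • Q) + yco V (k • Q) * psi2 V (k • Q))

/-- Velu's model of the quotient by `{k • Q : 0 ≤ k < p}`. -/
def veluCurve (Q : V.toAffine.Point) (p : ℕ) : WeierstrassCurve F :=
  ⟨V.a₁, V.a₂, V.a₃, V.a₄ - 5 * veluT V Q p, V.a₆ - V.b₂ * veluT V Q p - 7 * veluW V Q p⟩

/-- Abscissa of the image of `R` under Velu's isogeny (meaningful for `R` outside the kernel). -/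
def veluX (Q : V.toAffine.Point) (p : ℕ) (R : V.toAffine.Point) : F :=
  xco V R + ∑ k ∈ Finset.Ico 1 p, (xco V (R + k • Q) - xco V (k • Q))

/-- Ordinate of the image of `R` under Velu's isogeny (meaningful for `R` outside the kernel). -/
def veluY (Q : V.toAffine.Point) (p : ℕ) (R : V.toAffine.Point) : F :=
  yco V R + ∑ k ∈ Finset.Ico 1 p, (yco V (R + k • Q) - yco V (k • Q))

@[simp] theorem veluCurve_a₁ (Q : V.toAffine.Point) (p : ℕ) : (veluCurve V Q p).a₁ = V.a₁ := rfl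
@[simp] theorem veluCurve_a₂ (Q : V.toAffine.Point) (p : ℕ) : (veluCurve V Q p).a₂ = V.a₂ := rfl
@[simp] theorem veluCurve_a₃ (Q : V.toAffine.Point) (p : ℕ) : (veluCurve V Q p).a₃ = V.a₃ := rfl

theorem veluCurve_a₄ (Q : V.toAffine.Point) (p : ℕ) :
    (veluCurve V Q p).a₄ = V.a₄ - 5 * veluT V Q p := rfl

theorem veluCurve_a₆ (Q : V.toAffine.Point) (p : ℕ) :
    (veluCurve V Q p).a₆ = V.a₆ - V.b₂ * veluT V Q p - 7 * veluW V Q p := rfl

@[simp] theorem veluCurve_b₂ (Q : V.toAffine.Point) (p : ℕ) : (veluCurve V Q p).b₂ = V.b₂ := rfl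

theorem veluCurve_b₄ (Q : V.toAffine.Point) (p : ℕ) :
    (veluCurve V Q p).b₄ = V.b₄ - 10 * veluT V Q p := by
  simp only [WeierstrassCurve.b₄, veluCurve]
  ring

theorem veluCurve_b₆ (Q : V.toAffine.Point) (p : ℕ) :
    (veluCurve V Q p).b₆ = V.b₆ - 4 * V.b₂ * veluT V Q p - 28 * veluW V Q p := by
  simp only [WeierstrassCurve.b₆, WeierstrassCurve.b₂, veluCurve]
  ring

theorem veluCurve_c₄ (Q : V.toAffine.Point) (p : ℕ) :
    (veluCurve V Q p).c₄ = V.c₄ + 240 * veluT V Q p := by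
  simp only [WeierstrassCurve.c₄, veluCurve_b₂, veluCurve_b₄]
  ring

theorem veluCurve_c₆ (Q : V.toAffine.Point) (p : ℕ) :
    (veluCurve V Q p).c₆ = V.c₆ + 504 * V.b₂ * veluT V Q p + 6048 * veluW V Q p := by
  simp only [WeierstrassCurve.c₆, veluCurve_b₂, veluCurve_b₄, veluCurve_b₆]
  ring

/-- `gx(R) + gx(-R) = t_R` for an affine point. -/
theorem gx_add_gx_neg (R : V.toAffine.Point) (hR : R ≠ 0) : gx V R + gx V (-R) = tq V R := by
  cases R with
  | zero => exact absurd rfl hR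
  | some x y h =>
    rw [WeierstrassCurve.Affine.Point.neg_some]
    simp only [gx, tq, xco_some, yco_some, WeierstrassCurve.Affine.negY, WeierstrassCurve.b₂,
      WeierstrassCurve.b₄]
    ring

/-- `(y ψ₂)(R) + (y ψ₂)(-R) = u_R` for an affine point. -/
theorem ypsi_add_ypsi_neg (R : V.toAffine.Point) (hR : R ≠ 0) :
    yco V R * psi2 V R + yco V (-R) * psi2 V (-R) = uq V R := by
  cases R with
  | zero => exact absurd rfl hR
  | some x y h =>
    rw [WeierstrassCurve.Affine.Point.neg_some]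
    simp only [uq, psi2_some, yco_some, WeierstrassCurve.Affine.negY]
    ring

end Fermat.Agent.S12P.VeluDef51
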